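/-
S44 library, block F (helper8): general valuation lemmas for the field facts of the
"break-one rigidity" proof of (M′).

* `val_sum_of_distinct` : a sum whose nonzero terms have pairwise distinct valuations has the
  valuation of its largest term;
* `val_one_add_pow_sub_one_le`, `val_one_add_pow_sub_le_sq`, `val_one_add_zpow_sub_le_sq` :
  `(1 + x) ^ m ≡ 1 + m x  (mod x²)` for `m : ℤ`;
* powers of an element `0 < g < 1` of the value group.
-/
import Mathlib

set_option autoImplicit false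

namespace Fermat.Agent.S44lib.F

section Val

variable {K : Type*} [Field K] {Γ₀ : Type*} [LinearOrderedCommGroupWithZero Γ₀]
  (v : Valuation K Γ₀)

/-- A sum whose nonzero terms have pairwise distinct valuations has the valuation of its largest
term. -/
theorem val_sum_of_distinct {ι : Type*} (s : Finset ι) (t : ι → K)
    (hd : ∀ i ∈ s, ∀ j ∈ s, t i ≠ 0 → t j ≠ 0 → v (t i) = v (t j) → i = j)
    (hne : ∃ i ∈ s, t i ≠ 0) :
    ∃ k ∈ s, t k ≠ 0 ∧ v (∑ i ∈ s, t i) = v (t k) ∧ ∀ i ∈ s, v (t i) ≤ v (t k) := by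
  classical
  obtain ⟨i₀, hi₀, hti₀⟩ := hne
  have hne' : (s.filter (fun i => t i ≠ 0)).Nonempty := ⟨i₀, Finset.mem_filter.2 ⟨hi₀, hti₀⟩⟩
  obtain ⟨k, hk, hmax⟩ := Finset.exists_max_image _ (fun i => v (t i)) hne'
  rw [Finset.mem_filter] at hk
  have hle : ∀ i ∈ s, v (t i) ≤ v (t k) := by
    intro i hi
    by_cases h0 : t i = 0
    · rw [h0, map_zero]; exact zero_le
    · exact hmax i (Finset.mem_filter.2 ⟨hi, h0⟩)
  refine ⟨k, hk.1, hk.2, ?_, hle⟩
  apply Valuation.map_sum_eq_of_lt v hk.1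
  intro i hi
  rw [Finset.mem_sdiff, Finset.mem_singleton] at hi
  by_cases h0 : t i = 0
  · rw [h0, map_zero]; exact zero_lt_iff.2 ((Valuation.ne_zero_iff v).2 hk.2)
  · exact lt_of_le_of_ne (hle i hi.1) (fun h => hi.2 (hd i hi.1 k hk.1 h0 hk.2 h))

theorem val_natCast_le_one (n : ℕ) : v (n : K) ≤ 1 := by
  induction n with
  | zero => simp
  | succ n ih =>
    rw [Nat.cast_succ]
    exact le_trans (v.map_add _ _) (max_le ih (by rw [map_one]))

theorem val_intCast_le_one (n : ℤ) : v (n : K) ≤ 1 := by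
  rcases Int.natAbs_eq n with h | h
  · rw [h, Int.cast_natCast]; exact val_natCast_le_one v _
  · rw [h, Int.cast_neg, Int.cast_natCast, Valuation.map_neg]; exact val_natCast_le_one v _

theorem val_one_add_le_one {x : K} (hx : v x ≤ 1) : v (1 + x) ≤ 1 :=
  le_trans (v.map_add _ _) (max_le (by rw [map_one]) hx)

theorem val_one_add_eq_one {x : K} (hx : v x < 1) : v (1 + x) = 1 := by
  have h := Valuation.map_add_eq_of_lt_left v (x := 1) (y := x) (by rwa [map_one])
  rw [h, map_one]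

/-- `(1 + x) ^ n ≡ 1 (mod x)` -/
theorem val_one_add_pow_sub_one_le {x : K} (hx : v x ≤ 1) (n : ℕ) :
    v ((1 + x) ^ n - 1) ≤ v x := by
  have h := mul_geom_sum (1 + x) n
  rw [add_sub_cancel_left] at h
  rw [← h, map_mul]
  have h1 : v (∑ i ∈ Finset.range n, (1 + x) ^ i) ≤ 1 := by
    apply Valuation.map_sum_le
    intro i _
    rw [map_pow]
    exact pow_le_one₀ zero_le (val_one_add_le_one v hx)
  calc v x * v (∑ i ∈ Finset.range n, (1 + x) ^ i) ≤ v x * 1 := mul_le_mul' le_rfl h1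
    _ = v x := mul_one _

/-- `(1 + x) ^ n ≡ 1 + n x (mod x²)` -/
theorem val_one_add_pow_sub_le_sq {x : K} (hx : v x ≤ 1) (n : ℕ) :
    v ((1 + x) ^ n - (1 + n * x)) ≤ v x ^ 2 := by
  have h := mul_geom_sum (1 + x) n
  rw [add_sub_cancel_left] at h
  have e : (1 + x) ^ n - (1 + n * x) = x * ∑ i ∈ Finset.range n, ((1 + x) ^ i - 1) := by
    rw [Finset.sum_sub_distrib, mul_sub, h]
    simp only [Finset.sum_const, Finset.card_range, nsmul_eq_mul, mul_one]
    ring
  rw [e, map_mul, pow_two]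
  apply mul_le_mul' le_rfl
  apply Valuation.map_sum_le
  intro i _
  exact val_one_add_pow_sub_one_le v hx i

/-- `(1 + x) ^ m ≡ 1 + m x (mod x²)` for integer exponents -/
theorem val_one_add_zpow_sub_le_sq {x : K} (hx : v x < 1) (m : ℤ) :
    v ((1 + x) ^ m - (1 + m * x)) ≤ v x ^ 2 := by
  rcases Int.eq_nat_or_neg m with ⟨n, rfl | rfl⟩
  · rw [zpow_natCast, Int.cast_natCast]
    exact val_one_add_pow_sub_le_sq v hx.le n
  · have h1 : v (1 + x) = 1 := val_one_add_eq_one v hx
    have hy0 : (1 + x) ^ n ≠ 0 := by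
      apply pow_ne_zero
      intro h0
      rw [h0, map_zero] at h1
      exact zero_ne_one h1
    set r : K := (1 + x) ^ n - (1 + n * x) with hr
    have hrv : v r ≤ v x ^ 2 := val_one_add_pow_sub_le_sq v hx.le n
    have e : (1 + x) ^ (-(n : ℤ)) - (1 + ((-(n : ℤ) : ℤ) : K) * x) =
        ((1 + x) ^ n)⁻¹ * ((n : K) ^ 2 * x ^ 2 - (1 - n * x) * r) := by
      rw [zpow_neg, zpow_natCast]
      field_simp
      rw [hr]
      push_cast
      ring
    rw [e, map_mul, map_inv₀, map_pow, h1, one_pow, inv_one, one_mul]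
    refine le_trans (Valuation.map_sub _ _ _) (max_le ?_ ?_)
    · rw [map_mul, map_pow, map_pow]
      calc v (n : K) ^ 2 * v x ^ 2 ≤ 1 * v x ^ 2 :=
            mul_le_mul' (pow_le_one₀ zero_le (val_natCast_le_one v n)) le_rfl
        _ = v x ^ 2 := one_mul _
    · rw [map_mul]
      have h2 : v (1 - n * x) ≤ 1 := by
        refine le_trans (Valuation.map_sub _ _ _) (max_le (by rw [map_one]) ?_)
        rw [map_mul]
        calc v (n : K) * v x ≤ 1 * 1 := mul_le_mul' (val_natCast_le_one v n) hx.le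
          _ = 1 := one_mul _
      calc v (1 - n * x) * v r ≤ 1 * v x ^ 2 := mul_le_mul' h2 hrv
        _ = v x ^ 2 := one_mul _

end Val

section Pow

variable {Γ₀ : Type*} [LinearOrderedCommGroupWithZero Γ₀]

theorem zpow_inj_of_lt_one {g : Γ₀} (h0 : g ≠ 0) (h1 : g < 1) {a b : ℤ} (h : g ^ a = g ^ b) :
    a = b :=
  zpow_right_injective₀ (zero_lt_iff.2 h0) h1.ne h

theorem zpow_le_of_lt_one {g : Γ₀} (h0 : g ≠ 0) (h1 : g < 1) {a : ℤ} (h : g ^ a < 1) :
    g ^ a ≤ g := by
  have hpos : 0 < a := by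
    by_contra hneg
    rw [not_lt] at hneg
    have : 1 ≤ g ^ a := by
      obtain ⟨n, rfl⟩ := Int.exists_eq_neg_ofNat hneg
      rw [zpow_neg, zpow_natCast]
      exact (one_le_inv₀ (pow_pos (zero_lt_iff.2 h0) n)).2 (pow_le_one₀ zero_le h1.le)
    exact absurd h (not_lt.2 this)
  obtain ⟨n, rfl⟩ := Int.eq_ofNat_of_zero_le hpos.le
  rw [zpow_natCast]
  have hn : 1 ≤ n := by omega
  calc g ^ n ≤ g ^ 1 := pow_le_pow_of_le_one zero_le h1.le hn
    _ = g := pow_one g

end Pow

end Fermat.Agent.S44lib.F
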