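/-
S44 library, block F (helper8): the valuation of `λ = ζ − 1`, `ζ` a primitive `p`-th root of
unity: `v (ζ ^ j − 1) = v (ζ − 1)` for `p ∤ j` and `v (ζ − 1) ^ (p − 1) = v p`.
-/
import Mathlib
import Fermat.Agent.S44lib.Q3.RootsNearOne
import Fermat.Agent.S44lib.F.Val

set_option autoImplicit false

namespace Fermat.Agent.S44lib.F

open Fermat.Agent.S44lib.Q3

section Cyclo

variable {K : Type*} [Field K] {Γ₀ : Type*} [LinearOrderedCommGroupWithZero Γ₀]
  (v : Valuation K Γ₀)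

theorem val_pow_sub_one_le {ω : K} (hω : v ω ≤ 1) (j : ℕ) : v (ω ^ j - 1) ≤ v (ω - 1) := by
  have h := mul_geom_sum ω j
  rw [← h, map_mul]
  have h1 : v (∑ i ∈ Finset.range j, ω ^ i) ≤ 1 := by
    apply Valuation.map_sum_le
    intro i _
    rw [map_pow]
    exact pow_le_one₀ zero_le hω
  calc v (ω - 1) * v (∑ i ∈ Finset.range j, ω ^ i) ≤ v (ω - 1) * 1 := mul_le_mul' le_rfl h1
    _ = v (ω - 1) := mul_one _

variable {p : ℕ} (hp : p.Prime) {ζ : K} (hζ : IsPrimitiveRoot ζ p)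
include hp hζ

theorem val_zeta_pow_sub_one {j : ℕ} (hj : ¬ p ∣ j) : v (ζ ^ j - 1) = v (ζ - 1) := by
  have hζ1 : v ζ = 1 := val_root_of_unity (v := v) hp.ne_zero hζ.pow_eq_one
  refine le_antisymm (val_pow_sub_one_le v hζ1.le j) ?_
  have hcop : Nat.Coprime j p := (Nat.Coprime.symm ((Nat.Prime.coprime_iff_not_dvd hp).2 hj))
  obtain ⟨j', -, hj'⟩ := Nat.exists_mul_mod_eq_one_of_coprime hcop hp.one_lt
  have e : (ζ ^ j) ^ j' = ζ := by
    rw [← pow_mul, ← Nat.div_add_mod (j * j') p, hj', pow_add, pow_mul, hζ.pow_eq_one, one_pow,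
      one_mul, pow_one]
  have h1 : v (ζ ^ j) ≤ 1 := by rw [map_pow, hζ1, one_pow]
  calc v (ζ - 1) = v ((ζ ^ j) ^ j' - 1) := by rw [e]
    _ ≤ v (ζ ^ j - 1) := val_pow_sub_one_le v h1 j'

theorem prod_one_sub_zeta_pow :
    ∏ j ∈ (Finset.range p).erase 0, (1 - ζ ^ j) = (p : K) := by
  have h := prod_erase_root_sub hp.pos hζ (k := 0) (Finset.mem_range.2 hp.pos)
  simpa using h

/-- `v (ζ − 1) ^ (p − 1) = v p` -/
theorem val_zeta_sub_one_pow : v (ζ - 1) ^ (p - 1) = v (p : K) := by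
  rw [← prod_one_sub_zeta_pow hp hζ, map_prod]
  have h1 : ∀ j ∈ (Finset.range p).erase 0, v (1 - ζ ^ j) = v (ζ - 1) := by
    intro j hj
    rw [Finset.mem_erase, Finset.mem_range] at hj
    rw [← Valuation.map_neg, neg_sub]
    apply val_zeta_pow_sub_one v hp hζ
    intro hdvd
    exact absurd (Nat.le_of_dvd (Nat.pos_of_ne_zero hj.1) hdvd) (not_le.2 hj.2)
  rw [Finset.prod_congr rfl h1, Finset.prod_const, Finset.card_erase_of_mem
    (Finset.mem_range.2 hp.pos), Finset.card_range]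

theorem val_zeta_sub_one_lt_one (hpv : v (p : K) < 1) : v (ζ - 1) < 1 := by
  by_contra h
  rw [not_lt] at h
  have := one_le_pow₀ h (n := p - 1)
  rw [val_zeta_sub_one_pow v hp hζ] at this
  exact absurd hpv (not_lt.2 this)

theorem val_zeta_sub_one_ne_zero (hpv : v (p : K) ≠ 0) : v (ζ - 1) ≠ 0 := by
  intro h
  have := val_zeta_sub_one_pow v hp hζ
  rw [h, zero_pow (by have := hp.two_le; omega)] at this
  exact hpv this.symm

end Cyclo

end Fermat.Agent.S44lib.F
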