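/-
S44 library, block F (helper8): **(F0) the split / non-split dichotomy** for a `p`-th root `w`
of a unit `u` of `A0 A` (`A` a valuation ring of `ℚ̄` over `p ≥ 3`):

* either every element of `I₁ = IOne A p` fixes `w` (split case: `w ∈ K₁ = K₀(ζ_p)`),
* or there is a unit `c ∈ A0 A` with `v (w − c) ^ p = v p` (non-split, "peu ramifié" case).

Proof: the residue field of `A0` is perfect (`LSb.Kum.exists_pow_eq_one`), so `cᵖ ≡ u (𝔪)` for
some `c ∈ A0`, hence `cᵖ ≡ u (p)` (`A0` is unramified); `g := w / c` has `gᵖ = 1 − d/cᵖ`,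
`v d ≤ v p`.  If `v d < v p` then `v d ≤ v p ^ 2` and `g` is within `v p` of a root of unity
(`Q3.exists_root_of_unity_near`), which forces `σ g = g` for `σ ∈ I₁`.  If `v d = v p`, the
product formula `gᵖ − 1 = ∏ (g − ζⁱ)` gives `v (g − 1) ^ p = v p`.
-/
import Mathlib
import Fermat.Agent.LSb.Kum.Teich
import Fermat.Agent.S19lib.D.Comp
import Fermat.Agent.S13lib.ValAut
import Fermat.Agent.S05lib.InertiaFacts
import Fermat.Agent.S44lib.Iface
import Fermat.Agent.S44lib.Q3.RootsNearOne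
import Fermat.Agent.S44lib.F.Cyclo

set_option autoImplicit false
set_option linter.unusedSectionVars false

namespace Fermat.Agent.S44lib.F

open Fermat.Agent.S19lib Fermat.Agent.S44lib Fermat.Agent.S44lib.Q3

local notation "Qb" => AlgebraicClosure ℚ
local notation "GQ" => (AlgebraicClosure ℚ ≃ₐ[ℚ] AlgebraicClosure ℚ)

variable {A : ValuationSubring Qb} {p : ℕ}

/-- inertia preserves the valuation -/
theorem val_IA {σ : GQ} (hσ : σ ∈ IA A) (x : Qb) : A.valuation (σ x) = A.valuation x :=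
  Fermat.Agent.S13lib.val_algEquiv_eq σ (Fermat.Agent.S05lib.inertia_facts A σ hσ).1 x

theorem val_p_lt_one (hA : A.LiesOverPrime p) : A.valuation ((p : ℕ) : Qb) < 1 :=
  (A.mem_nonunits_iff).mp hA

theorem val_p_ne_zero (hp : p.Prime) : A.valuation ((p : ℕ) : Qb) ≠ 0 := by
  rw [Valuation.ne_zero_iff]
  exact_mod_cast hp.ne_zero

theorem mem_A0_iff {a : Qb} : a ∈ A0 A ↔ a ∈ A ∧ ∀ σ ∈ IA A, σ a = a := Iff.rfl

theorem mem_A0_of_fixed {a : Qb} (h1 : A.valuation a ≤ 1) (h2 : ∀ σ ∈ IA A, σ a = a) :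
    a ∈ A0 A := ⟨(A.valuation_le_one_iff a).1 h1, h2⟩

theorem val_le_one_of_mem_A0 {a : Qb} (h : a ∈ A0 A) : A.valuation a ≤ 1 :=
  (A.valuation_le_one_iff a).2 h.1

/-- the inverse of a unit of `A0` is in `A0` -/
theorem inv_mem_A0 {c : Qb} (hc : c ∈ A0 A) (hc1 : A.valuation c = 1) : c⁻¹ ∈ A0 A := by
  refine mem_A0_of_fixed ?_ (fun σ hσ => ?_)
  · rw [map_inv₀, hc1, inv_one]
  · rw [map_inv₀, hc.2 σ hσ]

/-- **the residue field of `A0` is perfect**: `p`-th roots modulo the maximal ideal -/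
theorem exists_A0_pow_near (hp : p.Prime) (hA : A.LiesOverPrime p) {u : Qb} (hu : u ∈ A0 A)
    (hu1 : A.valuation u = 1) :
    ∃ c ∈ A0 A, A.valuation c = 1 ∧ A.valuation (c ^ p - u) < 1 := by
  have : Fact p.Prime := ⟨hp⟩
  have hune : IsLocalRing.residue A ⟨u, hu.1⟩ ≠ 0 := by
    intro h0
    have h1 : (⟨u, hu.1⟩ : A) ∈ IsLocalRing.maximalIdeal A :=
      (IsLocalRing.residue_eq_zero_iff _).mp h0
    have h2 := (A.valuation_lt_one_iff _).mp h1
    rw [show ((⟨u, hu.1⟩ : A) : Qb) = u from rfl, hu1] at h2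
    exact lt_irrefl _ h2
  obtain ⟨m, hm, hpm, hpow⟩ := Fermat.Agent.LSb.Kum.exists_pow_eq_one hA hune
  -- `v (u ^ m - 1) < 1`
  have hum : A.valuation (u ^ m - 1) < 1 := by
    have h1 : IsLocalRing.residue A ((⟨u, hu.1⟩ : A) ^ m - 1) = 0 := by
      rw [map_sub, map_pow, hpow, map_one, sub_self]
    have h2 : ((⟨u, hu.1⟩ : A) ^ m - 1) ∈ IsLocalRing.maximalIdeal A :=
      (IsLocalRing.residue_eq_zero_iff _).mp h1
    have h3 := (A.valuation_lt_one_iff _).mp h2
    simpa using h3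
  -- `p ^ φ(m) = 1 + m t`
  have hcop : Nat.Coprime p m := (Nat.Prime.coprime_iff_not_dvd hp).2 hpm
  have hmod : p ^ Nat.totient m ≡ 1 [MOD m] := Nat.ModEq.pow_totient hcop
  have hge : 1 ≤ p ^ Nat.totient m := Nat.one_le_pow _ _ hp.pos
  obtain ⟨t, ht⟩ := (Nat.modEq_iff_dvd' hge).1 hmod.symm
  have hφ : 0 < Nat.totient m := Nat.totient_pos.2 hm
  obtain ⟨s, hs⟩ : ∃ s, Nat.totient m = s + 1 := ⟨Nat.totient m - 1, by omega⟩
  have hexp : p ^ s * p = 1 + m * t := by
    rw [← pow_succ, ← hs]; omega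
  refine ⟨u ^ (p ^ s), (A0 A).pow_mem hu _, by rw [map_pow, hu1, one_pow], ?_⟩
  have e : (u ^ (p ^ s)) ^ p - u = u * ((u ^ m) ^ t - 1) := by
    rw [← pow_mul, hexp, pow_add, pow_one, pow_mul]; ring
  rw [e, map_mul, hu1, one_mul]
  refine lt_of_le_of_lt (val_pow_sub_one_le A.valuation ?_ t) hum
  rw [map_pow, hu1, one_pow]

/-- **(F0)** the split / non-split dichotomy -/
theorem unitRoot_dichotomy (hp : p.Prime) (hp3 : 3 ≤ p) (hA : A.LiesOverPrime p) {w : Qb}
    (hw : IsUnitRoot A p w) :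
    (∀ σ ∈ IOne A p, σ w = w) ∨
      ∃ c ∈ A0 A, A.valuation c = 1 ∧
        A.valuation (w - c) ^ p = A.valuation ((p : ℕ) : Qb) := by
  have hpv1 := val_p_lt_one hA
  have hpv0 := val_p_ne_zero (A := A) hp
  have hpQ : ((p : ℕ) : Qb) ≠ 0 := by exact_mod_cast hp.ne_zero
  have : NeZero ((p : ℕ) : ℚ) := ⟨by exact_mod_cast hp.ne_zero⟩
  have : NeZero p := ⟨hp.ne_zero⟩
  obtain ⟨ζ, hζ⟩ := HasEnoughRootsOfUnity.exists_primitiveRoot Qb p
  obtain ⟨hu, hu1⟩ := hw
  obtain ⟨c, hc, hc1, hcu⟩ := exists_A0_pow_near hp hA hu hu1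
  have hc0 : c ≠ 0 := by
    intro h0; rw [h0, map_zero] at hc1; exact zero_ne_one hc1
  have hw1 : A.valuation w = 1 := by
    rw [map_pow] at hu1
    exact (pow_eq_one_iff_of_nonneg zero_le hp.ne_zero).1 hu1
  -- `d = cᵖ − u ∈ A0`, `v d ≤ v p`
  set d : Qb := c ^ p - w ^ p with hd
  have hdA0 : d ∈ A0 A := (A0 A).sub_mem ((A0 A).pow_mem hc p) hu
  have hdp : A.valuation d ≤ A.valuation ((p : ℕ) : Qb) :=
    Fermat.Agent.S19lib.D.valuation_le_of_mem_A0 hp A hA hdA0 hcu
  -- `g = w / c`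
  set g : Qb := w / c with hg
  have hg1 : A.valuation g = 1 := by rw [hg, map_div₀, hw1, hc1, div_one]
  have hgp : g ^ p - 1 = -(d / c ^ p) := by
    rw [hg, hd, div_pow]; field_simp; ring
  have hgpv : A.valuation (g ^ p - 1) = A.valuation d := by
    rw [hgp, Valuation.map_neg, map_div₀, map_pow, hc1, one_pow, div_one]
  have hgpfix : ∀ σ ∈ IA A, σ (g ^ p) = g ^ p := by
    intro σ hσ
    rw [hg, div_pow, map_div₀, hu.2 σ hσ, map_pow, hc.2 σ hσ]
  have hℓ := val_zeta_sub_one_pow A.valuation hp hζ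
  have hℓ1 := val_zeta_sub_one_lt_one A.valuation hp hζ hpv1
  have hℓ0 := val_zeta_sub_one_ne_zero A.valuation hp hζ hpv0
  rcases lt_or_eq_of_le hdp with hlt | heq
  · -- split case
    left
    -- `v d ≤ v p ^ 2`
    have hd2 : A.valuation d ≤ A.valuation ((p : ℕ) : Qb) ^ 2 := by
      have h1 : d / (p : Qb) ∈ A0 A := by
        refine mem_A0_of_fixed ?_ (fun σ hσ => ?_)
        · rw [map_div₀]; exact (div_le_one₀ (zero_lt_iff.2 hpv0)).2 hlt.le
        · rw [map_div₀, hdA0.2 σ hσ, map_natCast]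
      have h2 : A.valuation (d / (p : Qb)) < 1 := by
        rw [map_div₀]; exact (div_lt_one₀ (zero_lt_iff.2 hpv0)).2 hlt
      have h3 := Fermat.Agent.S19lib.D.valuation_le_of_mem_A0 hp A hA h1 h2
      rw [map_div₀, div_le_iff₀ (zero_lt_iff.2 hpv0)] at h3
      rwa [pow_two]
    obtain ⟨i, hi, hnear⟩ := exists_root_of_unity_near (v := A.valuation) hp.pos hζ g
    rw [hgpv] at hnear
    have hnear' : A.valuation (g - ζ ^ i) ≤ A.valuation ((p : ℕ) : Qb) := by
      have h1 := le_trans hnear hd2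
      rw [pow_two] at h1
      exact le_of_mul_le_mul_right h1 (zero_lt_iff.2 hpv0)
    intro σ hσ
    -- `r = σ g / g` is a `p`-th root of unity
    have hg0 : g ≠ 0 := by
      intro h0; rw [h0, map_zero] at hg1; exact zero_ne_one hg1
    set r : Qb := σ g / g with hr
    have hrp : r ^ p = 1 := by
      rw [hr, div_pow, ← map_pow, hgpfix σ hσ.1, div_self (pow_ne_zero _ hg0)]
    have hσg : σ g = r * g := by rw [hr, div_mul_cancel₀ _ hg0]
    have hσζ : σ (ζ ^ i) = ζ ^ i :=
      hσ.2 _ (by rw [← pow_mul, mul_comm, pow_mul, hζ.pow_eq_one, one_pow])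
    have h1 : A.valuation (r * g - ζ ^ i) ≤ A.valuation ((p : ℕ) : Qb) := by
      have := val_IA hσ.1 (g - ζ ^ i)
      rw [map_sub, hσζ, hσg] at this
      rw [this]; exact hnear'
    have h2 : A.valuation (r - 1) ≤ A.valuation ((p : ℕ) : Qb) := by
      have e : r - 1 = ((r * g - ζ ^ i) - (g - ζ ^ i)) / g := by field_simp; ring
      rw [e, map_div₀, hg1, div_one]
      exact le_trans (Valuation.map_sub _ _ _) (max_le h1 hnear')
    have hr1 : r = 1 := by
      by_contra hne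
      obtain ⟨k, hk, hkr⟩ := hζ.eq_pow_of_pow_eq_one hrp
      have hpk : ¬ p ∣ k := by
        intro hdvd
        rcases Nat.eq_zero_of_dvd_of_lt hdvd hk with rfl
        exact hne (by rw [← hkr, pow_zero])
      have h3 := val_zeta_pow_sub_one A.valuation hp hζ hpk
      rw [hkr] at h3
      rw [h3, ← hℓ] at h2
      -- `ℓ ≤ ℓ ^ (p - 1) < ℓ`
      have h4 : A.valuation (ζ - 1) ^ (p - 1) < A.valuation (ζ - 1) ^ 1 :=
        pow_lt_pow_right_of_lt_one₀ (zero_lt_iff.2 hℓ0) hℓ1 (by omega)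
      rw [pow_one] at h4
      exact absurd h2 (not_le.2 h4)
    have h3 : σ g = g := by rw [hσg, hr1, one_mul]
    have hwg : w = g * c := by rw [hg, div_mul_cancel₀ _ hc0]
    rw [hwg, map_mul, h3, hc.2 σ hσ.1]
  · -- non-split case
    right
    refine ⟨c, hc, hc1, ?_⟩
    have hη : w - c = (g - 1) * c := by rw [hg]; field_simp
    rw [hη, map_mul, hc1, mul_one]
    -- product formula
    have hprod := pow_sub_one_eq_prod hp.pos hζ g
    have hv := congrArg A.valuation hprod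
    rw [hgpv, heq, map_prod, ← Finset.mul_prod_erase _ _ (Finset.mem_range.2 hp.pos), pow_zero]
      at hv
    have hfac : ∀ j ∈ (Finset.range p).erase 0, g - ζ ^ j = (g - 1) - (ζ ^ j - 1) := by
      intro j _; ring
    have hvj : ∀ j ∈ (Finset.range p).erase 0, A.valuation (ζ ^ j - 1) = A.valuation (ζ - 1) := by
      intro j hj
      rw [Finset.mem_erase, Finset.mem_range] at hj
      apply val_zeta_pow_sub_one A.valuation hp hζ
      intro hdvd
      exact absurd (Nat.le_of_dvd (Nat.pos_of_ne_zero hj.1) hdvd) (not_le.2 hj.2)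
    have hcard : ((Finset.range p).erase 0).card = p - 1 := by
      rw [Finset.card_erase_of_mem (Finset.mem_range.2 hp.pos), Finset.card_range]
    rcases lt_trichotomy (A.valuation (g - 1)) (A.valuation (ζ - 1)) with hlt | heq' | hgt
    · -- `v η < ℓ`: impossible
      exfalso
      have h1 : ∀ j ∈ (Finset.range p).erase 0, A.valuation (g - ζ ^ j) = A.valuation (ζ - 1) := by
        intro j hj
        rw [hfac j hj, ← hvj j hj]
        apply Valuation.map_sub_eq_of_lt_right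
        rw [hvj j hj]; exact hlt
      rw [Finset.prod_congr rfl h1, Finset.prod_const, hcard, hℓ] at hv
      have h2 : A.valuation (g - 1) = 1 := by
        have h3 : A.valuation (g - 1) * A.valuation ((p : ℕ) : Qb) =
            1 * A.valuation ((p : ℕ) : Qb) := by rw [one_mul]; exact hv.symm
        exact mul_right_cancel₀ hpv0 h3
      rw [h2] at hlt
      exact absurd hℓ1 (not_lt.2 hlt.le)
    · -- `v η = ℓ`: impossible
      exfalso
      have h1 : ∀ j ∈ (Finset.range p).erase 0, A.valuation (g - ζ ^ j) ≤ A.valuation (ζ - 1) := by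
        intro j hj
        rw [hfac j hj]
        exact le_trans (Valuation.map_sub _ _ _) (max_le heq'.le (hvj j hj).le)
      have h2 : ∏ j ∈ (Finset.range p).erase 0, A.valuation (g - ζ ^ j) ≤
          A.valuation (ζ - 1) ^ (p - 1) := by
        rw [← hcard, ← Finset.prod_const]
        exact Finset.prod_le_prod' h1
      have h3 : A.valuation ((p : ℕ) : Qb) ≤
          A.valuation (ζ - 1) * A.valuation ((p : ℕ) : Qb) := by
        calc A.valuation ((p : ℕ) : Qb)
            = A.valuation (g - 1) * ∏ j ∈ (Finset.range p).erase 0, A.valuation (g - ζ ^ j) := hv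
          _ ≤ A.valuation (ζ - 1) * A.valuation (ζ - 1) ^ (p - 1) := mul_le_mul' heq'.le h2
          _ = A.valuation (ζ - 1) * A.valuation ((p : ℕ) : Qb) := by rw [hℓ]
      have h4 : A.valuation (ζ - 1) * A.valuation ((p : ℕ) : Qb) <
          1 * A.valuation ((p : ℕ) : Qb) :=
        mul_lt_mul_of_pos_right hℓ1 (zero_lt_iff.2 hpv0)
      rw [one_mul] at h4
      exact absurd h3 (not_le.2 h4)
    · -- `v η > ℓ`
      have h1 : ∀ j ∈ (Finset.range p).erase 0, A.valuation (g - ζ ^ j) = A.valuation (g - 1) := by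
        intro j hj
        rw [hfac j hj]
        apply Valuation.map_sub_eq_of_lt_left
        rw [hvj j hj]; exact hgt
      rw [Finset.prod_congr rfl h1, Finset.prod_const, hcard, ← pow_succ'] at hv
      rw [hv]
      congr 1
      have := hp.two_le
      omega

end Fermat.Agent.S44lib.F
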