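/-
S44 library, block F (helper8): **Galois descent by orbit interpolation.**
`G` a group of automorphisms of a field `L`, `x ∈ L` with `G`-orbit inside a finite set `S`,
`a ∈ L` fixed by the stabiliser of `x` in `G`.  Then `a = ∑_{i < #S} e i * x ^ i` with `e i`
fixed by `G` (Lagrange interpolation of `σ x ↦ σ a` on the orbit; the interpolating polynomial
is unique, hence `G`-invariant).
-/
import Mathlib

set_option autoImplicit false

namespace Fermat.Agent.S44lib.F

open Polynomial

section Interp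

variable {F L : Type*} [Field F] [Field L] [Algebra F L]

theorem exists_coeffs_of_fixed (G : Subgroup (L ≃ₐ[F] L)) (x : L) (S : Finset L)
    (hS : ∀ σ ∈ G, σ x ∈ S) (a : L) (ha : ∀ σ ∈ G, σ x = x → σ a = a) :
    ∃ e : ℕ → L, (∀ i, ∀ σ ∈ G, σ (e i) = e i) ∧
      a = ∑ i ∈ Finset.range S.card, e i * x ^ i := by
  classical
  -- the orbit
  set O : Finset L := S.filter (fun s => ∃ σ ∈ G, σ x = s) with hO
  have hmemO : ∀ σ ∈ G, σ x ∈ O := fun σ hσ => Finset.mem_filter.2 ⟨hS σ hσ, σ, hσ, rfl⟩
  -- the data to interpolate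
  let φ : L → L := fun s => if h : ∃ σ ∈ G, σ x = s then (Classical.choose h) a else 0
  have hφ : ∀ σ ∈ G, φ (σ x) = σ a := by
    intro σ hσ
    have h : ∃ σ' ∈ G, σ' x = σ x := ⟨σ, hσ, rfl⟩
    have hφ' : φ (σ x) = (Classical.choose h) a := dif_pos h
    obtain ⟨h1, h2⟩ := Classical.choose_spec h
    set σ' := Classical.choose h
    rw [hφ']
    have h3 : (σ⁻¹ * σ') x = x := by
      rw [AlgEquiv.mul_apply, h2]
      exact σ.symm_apply_apply x
    have h4 := ha (σ⁻¹ * σ') (G.mul_mem (G.inv_mem hσ) h1) h3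
    rw [AlgEquiv.mul_apply] at h4
    have h5 := congrArg σ h4
    rwa [show σ (σ⁻¹ (σ' a)) = σ' a from σ.apply_symm_apply _] at h5
  set P : L[X] := Lagrange.interpolate O id φ with hP
  have hinj : Set.InjOn (id : L → L) (O : Set L) := fun _ _ _ _ h => h
  have hdeg : P.degree < O.card := Lagrange.degree_interpolate_lt φ hinj
  have heval : ∀ s ∈ O, P.eval s = φ s := fun s hs =>
    Lagrange.eval_interpolate_at_node φ hinj hs
  -- invariance of `P`
  have hinv : ∀ σ ∈ G, P.map (σ : L →+* L) = P := by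
    intro σ hσ
    apply Polynomial.eq_of_degrees_lt_of_eval_finset_eq O _ hdeg
    · intro t ht
      obtain ⟨-, τ, hτ, rfl⟩ := Finset.mem_filter.1 ht
      have h1 : τ x = (σ : L →+* L) ((σ⁻¹ * τ) x) := by
        rw [AlgEquiv.mul_apply]
        exact (σ.apply_symm_apply _).symm
      have hmem : (σ⁻¹ * τ) ∈ G := G.mul_mem (G.inv_mem hσ) hτ
      rw [heval _ (hmemO τ hτ), hφ τ hτ]
      conv_lhs => rw [h1]
      rw [Polynomial.eval_map_apply, heval _ (hmemO _ hmem), hφ _ hmem, AlgEquiv.mul_apply]
      exact σ.apply_symm_apply _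
    · exact lt_of_le_of_lt (Polynomial.degree_map_le) hdeg
  have hxS : x ∈ S := by simpa using hS 1 G.one_mem
  have hcard : O.card ≤ S.card := Finset.card_filter_le _ _
  have hnat : P.natDegree < S.card := by
    by_cases hP0 : P = 0
    · rw [hP0, natDegree_zero]
      exact Finset.card_pos.2 ⟨x, hxS⟩
    · have := (Polynomial.natDegree_lt_iff_degree_lt hP0).2 hdeg
      exact lt_of_lt_of_le this hcard
  refine ⟨fun i => P.coeff i, ?_, ?_⟩
  · intro i σ hσ
    have := congrArg (fun q => q.coeff i) (hinv σ hσ)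
    simpa [coeff_map] using this
  · have h1 : a = P.eval x := by
      have h2 := hφ 1 G.one_mem
      have h3 := heval x (by simpa using hmemO 1 G.one_mem)
      simp only [AlgEquiv.one_apply] at h2
      rw [h3, h2]
    rw [h1]
    exact Polynomial.eval_eq_sum_range' hnat x

end Interp

end Fermat.Agent.S44lib.F
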