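/-
S44 library, block F (helper8): value groups of the fixed fields `K₀ = ℚ̄^{I}` and
`K₁ = ℚ̄^{I₁} = K₀(ζ_p)` of a valuation ring `A` of `ℚ̄` over `p`:

* `val_of_IA_fixed`   : `v (K₀ˣ) = v(p)^ℤ`            (`S36lib.Desc.exists_zpow_mul_unit`);
* `val_of_IOne_fixed` : `v (K₁ˣ) = v(ζ − 1)^ℤ`,  `v (ζ − 1) ^ (p − 1) = v p`
  (expansion `a = ∑_{j < p − 1} e_j (ζ − 1)^j`, `e_j ∈ K₀`, by orbit interpolation, and the terms
  have pairwise distinct valuations).
-/
import Mathlib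
import Fermat.Agent.S36lib.Desc.Base
import Fermat.Agent.S44lib.F.Dich
import Fermat.Agent.S44lib.F.Interp

set_option autoImplicit false
set_option linter.unusedSectionVars false

namespace Fermat.Agent.S44lib.F

open Fermat.Agent.S19lib Fermat.Agent.S44lib

local notation "Qb" => AlgebraicClosure ℚ
local notation "GQ" => (AlgebraicClosure ℚ ≃ₐ[ℚ] AlgebraicClosure ℚ)

theorem index_eq_of_eq {N M : ℤ} (hcop : IsCoprime N M) {a b i j : ℤ} (hi : 0 ≤ i)
    (hiN : i < N) (hj : 0 ≤ j) (hjN : j < N) (h : N * a + M * i = N * b + M * j) : i = j := by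
  have h1 : N ∣ M * (i - j) := ⟨b - a, by linear_combination h⟩
  have h2 : N ∣ i - j := hcop.dvd_of_dvd_mul_left h1
  have h3 : |i - j| < N := by rw [abs_lt]; constructor <;> linarith
  have := Int.eq_zero_of_abs_lt_dvd h2 h3
  linarith

section Graded

variable {K : Type*} [Field K] {Γ₀ : Type*} [LinearOrderedCommGroupWithZero Γ₀]
  (v : Valuation K Γ₀)

/-- a sum of `N` terms whose valuations are `g ^ (N a_i + M i)`, `gcd (N, M) = 1`, has the
valuation of its largest term -/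
theorem val_sum_of_graded {g : Γ₀} (hg0 : g ≠ 0) (hg1 : g < 1) {N : ℕ} {M : ℤ}
    (hcop : IsCoprime (N : ℤ) M) (t : ℕ → K)
    (ht : ∀ i < N, t i ≠ 0 → ∃ a : ℤ, v (t i) = g ^ ((N : ℤ) * a + M * i))
    (hne : ∑ i ∈ Finset.range N, t i ≠ 0) :
    ∃ k < N, t k ≠ 0 ∧ v (∑ i ∈ Finset.range N, t i) = v (t k) ∧ ∀ i < N, v (t i) ≤ v (t k) := by
  obtain ⟨i₀, hi₀, hti₀⟩ := Finset.exists_ne_zero_of_sum_ne_zero hne
  obtain ⟨k, hk, hk0, hsum, hle⟩ := val_sum_of_distinct v (Finset.range N) t (by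
    intro i hi j hj hti htj hv
    rw [Finset.mem_range] at hi hj
    obtain ⟨a, ha⟩ := ht i hi hti
    obtain ⟨b, hb⟩ := ht j hj htj
    rw [ha, hb] at hv
    have h1 := zpow_inj_of_lt_one hg0 hg1 hv
    have h2 := index_eq_of_eq hcop (i := (i : ℤ)) (j := (j : ℤ)) (by positivity)
      (by exact_mod_cast hi) (by positivity) (by exact_mod_cast hj) h1
    exact_mod_cast h2) ⟨i₀, hi₀, hti₀⟩
  exact ⟨k, Finset.mem_range.1 hk, hk0, hsum, fun i hi => hle i (Finset.mem_range.2 hi)⟩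

end Graded

section Interp'

variable {F L : Type*} [Field F] [Field L] [Algebra F L]

/-- `exists_coeffs_of_fixed` with the sum padded to any length `n ≥ #S` -/
theorem exists_coeffs_of_fixed' (G : Subgroup (L ≃ₐ[F] L)) (x : L) (S : Finset L)
    (hS : ∀ σ ∈ G, σ x ∈ S) (n : ℕ) (hn : S.card ≤ n) (a : L)
    (ha : ∀ σ ∈ G, σ x = x → σ a = a) :
    ∃ e : ℕ → L, (∀ i, ∀ σ ∈ G, σ (e i) = e i) ∧
      a = ∑ i ∈ Finset.range n, e i * x ^ i := by
  obtain ⟨e, he, hsum⟩ := exists_coeffs_of_fixed G x S hS a ha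
  refine ⟨fun i => if i < S.card then e i else 0, ?_, ?_⟩
  · intro i σ hσ
    by_cases h : i < S.card
    · simp only [h, if_true]; exact he i σ hσ
    · simp only [h, if_false]; exact map_zero σ
  · rw [hsum]
    rw [← Finset.sum_subset (Finset.range_mono hn)]
    · apply Finset.sum_congr rfl
      intro i hi
      rw [Finset.mem_range] at hi
      simp only [hi, if_true]
    · intro i _ hi
      rw [Finset.mem_range] at hi
      simp only [hi, if_false, zero_mul]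

end Interp'

variable {A : ValuationSubring Qb} {p : ℕ}

/-- **`K₀` is unramified**: an inertia-fixed element has the valuation of a power of `p` -/
theorem val_of_IA_fixed (hp : p.Prime) (hA : A.LiesOverPrime p) {a : Qb} (ha : a ≠ 0)
    (hfix : ∀ σ ∈ IA A, σ a = a) :
    ∃ n : ℤ, A.valuation a = A.valuation ((p : ℕ) : Qb) ^ n := by
  obtain ⟨m, hm⟩ := Fermat.Agent.S36lib.Desc.exists_zpow_mul_unit A hp hA ha hfix
  refine ⟨-m, ?_⟩
  rw [map_mul, map_zpow₀] at hm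
  rw [zpow_neg]
  exact eq_inv_of_mul_eq_one_left hm

/-- **the value group of `K₁ = K₀(ζ_p)`** is generated by `v (ζ − 1)` -/
theorem val_of_IOne_fixed (hp : p.Prime) (hA : A.LiesOverPrime p) {ζ : Qb}
    (hζ : IsPrimitiveRoot ζ p) {a : Qb} (ha : a ≠ 0) (hfix : ∀ σ ∈ IOne A p, σ a = a) :
    ∃ n : ℤ, A.valuation a = A.valuation (ζ - 1) ^ n := by
  classical
  have : NeZero p := ⟨hp.ne_zero⟩
  have hpv1 := val_p_lt_one hA
  have hpv0 := val_p_ne_zero (A := A) hp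
  have hℓ := val_zeta_sub_one_pow A.valuation hp hζ
  have hℓ1 := val_zeta_sub_one_lt_one A.valuation hp hζ hpv1
  have hℓ0 := val_zeta_sub_one_ne_zero A.valuation hp hζ hpv0
  set S : Finset Qb := ((Finset.range p).erase 0).image (fun k => ζ ^ k - 1) with hS
  have hScard : S.card ≤ p - 1 := by
    refine le_trans Finset.card_image_le ?_
    rw [Finset.card_erase_of_mem (Finset.mem_range.2 hp.pos), Finset.card_range]
  have hmemS : ∀ σ ∈ IA A, σ (ζ - 1) ∈ S := by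
    intro σ hσ
    have h1 : (σ ζ) ^ p = 1 := by rw [← map_pow, hζ.pow_eq_one, map_one]
    obtain ⟨k, hk, hkζ⟩ := hζ.eq_pow_of_pow_eq_one h1
    have hk0 : k ≠ 0 := by
      rintro rfl
      rw [pow_zero] at hkζ
      have : σ ζ = σ 1 := by rw [map_one, ← hkζ]
      exact hζ.ne_one hp.one_lt (σ.injective this)
    rw [map_sub, map_one, ← hkζ]
    exact Finset.mem_image.2 ⟨k, Finset.mem_erase.2 ⟨hk0, Finset.mem_range.2 hk⟩, rfl⟩
  have hstab : ∀ σ ∈ IA A, σ (ζ - 1) = ζ - 1 → σ a = a := by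
    intro σ hσ h
    apply hfix σ
    refine ⟨hσ, fun ω hω => ?_⟩
    have hσζ : σ ζ = ζ := by
      rw [map_sub, map_one] at h
      exact sub_left_injective h
    obtain ⟨k, -, rfl⟩ := hζ.eq_pow_of_pow_eq_one hω
    rw [map_pow, hσζ]
  obtain ⟨e, he, hsum⟩ :=
    exists_coeffs_of_fixed' (IA A) (ζ - 1) S hmemS (p - 1) hScard a hstab
  have hcop : IsCoprime (((p - 1 : ℕ) : ℤ)) (1 : ℤ) := isCoprime_one_right
  have hne : ∑ i ∈ Finset.range (p - 1), e i * (ζ - 1) ^ i ≠ 0 := by rw [← hsum]; exact ha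
  have hterm : ∀ i < p - 1, e i * (ζ - 1) ^ i ≠ 0 →
      ∃ n : ℤ, A.valuation (e i * (ζ - 1) ^ i) =
        A.valuation (ζ - 1) ^ (((p - 1 : ℕ) : ℤ) * n + 1 * i) := by
    intro i _ hti
    have hei : e i ≠ 0 := left_ne_zero_of_mul hti
    obtain ⟨n, hn⟩ := val_of_IA_fixed hp hA hei (he i)
    refine ⟨n, ?_⟩
    rw [map_mul, map_pow, hn, ← hℓ, ← zpow_natCast, ← zpow_mul, ← zpow_natCast _ i,
      ← zpow_add₀ hℓ0, one_mul]
  obtain ⟨k, hk, hk0, hv, -⟩ := val_sum_of_graded A.valuation hℓ0 hℓ1 hcop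
    (fun i => e i * (ζ - 1) ^ i) hterm hne
  obtain ⟨n, hn⟩ := hterm k hk hk0
  exact ⟨_, by rw [hsum, hv, hn]⟩

/-- an `I₁`-fixed element of the maximal ideal is divisible by `ζ − 1` -/
theorem val_le_of_IOne_fixed (hp : p.Prime) (hA : A.LiesOverPrime p) {ζ : Qb}
    (hζ : IsPrimitiveRoot ζ p) {a : Qb} (hfix : ∀ σ ∈ IOne A p, σ a = a)
    (hlt : A.valuation a < 1) : A.valuation a ≤ A.valuation (ζ - 1) := by
  rcases eq_or_ne a 0 with rfl | ha
  · rw [map_zero]; exact zero_le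
  obtain ⟨n, hn⟩ := val_of_IOne_fixed hp hA hζ ha hfix
  rw [hn] at hlt ⊢
  exact zpow_le_of_lt_one (val_zeta_sub_one_ne_zero A.valuation hp hζ (val_p_ne_zero hp))
    (val_zeta_sub_one_lt_one A.valuation hp hζ (val_p_lt_one hA)) hlt

end Fermat.Agent.S44lib.F
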