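/-
S44 library, block F (helper8): **(F1), (F2) — the non-split peu ramifié extension has
ramification break 1.**

`A` a valuation ring of `ℚ̄` over `p ≥ 3`, `w` a `p`-th root of a unit of `A0 A`, not fixed by
`I₁ = IOne A p`; `τ ∈ I₁` with `τ w = ζ w`, `ζ ≠ 1`; `c ∈ A0 A` a unit with `v (w − c) ^ p = v p`
(`unitRoot_dichotomy`).  Put `λ = ζ − 1`, `η₀ = w − c`, `ϖ = λ / η₀` (`varpi`).  Then

* `val_varpi_pow`      : `v ϖ ^ (p (p − 1)) = v p`  (also `v ϖ ^ p = v λ`, `v ϖ ^ (p − 1) = v η₀`);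
* `tau_varpi`          : `τ ϖ = ϖ / (1 + ϖ w)`, hence
  `val_tau_varpi`      : `v (τ ϖ / ϖ − (1 − ϖ w)) ≤ v ϖ ^ 2`            (break 1, `β = −w̄`);
* `exists_expansion`   : every `a` fixed by `H′ = I₁ ∩ Fix w` is `∑_{i < p} e_i η₀^i`, `e_i ∈ K₁`,
  and the terms are bounded by `v a`;
* `val_of_fixed`       : `v a ∈ v(ϖ)^ℤ` for `H′`-fixed `a ≠ 0`;
* `val_tau_sub_le`     : `v (τ ε − ε) ≤ v ϖ ^ 2` for `H′`-fixed integral `ε`;
* `val_tau_div_sub_le` : `v (τ a / a − (1 − m ϖ w)) ≤ v ϖ ^ 2` for `H′`-fixed `a` with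
  `v a = v ϖ ^ m`;
* `val_of_IOne_fixed_varpi` : `v a ∈ v(ϖ)^{pℤ}` for `I₁`-fixed `a ≠ 0`.
-/
import Mathlib
import Fermat.Agent.S44lib.F.Fixed

set_option autoImplicit false
set_option linter.unusedSectionVars false

namespace Fermat.Agent.S44lib.F

open Fermat.Agent.S19lib Fermat.Agent.S44lib

local notation "Qb" => AlgebraicClosure ℚ
local notation "GQ" => (AlgebraicClosure ℚ ≃ₐ[ℚ] AlgebraicClosure ℚ)

/-- **the non-split situation**: `w` a `p`-th root of a unit of `A0 A`, `τ ∈ I₁` with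
`τ w = ζ w`, `ζ` a primitive `p`-th root of unity, `c` a unit of `A0 A` with
`v (w − c) ^ p = v p`. -/
structure NonSplit (A : ValuationSubring Qb) (p : ℕ) (w ζ c : Qb) (τ : GQ) : Prop where
  unitRoot : IsUnitRoot A p w
  prim : IsPrimitiveRoot ζ p
  tau_mem : τ ∈ IOne A p
  tau_w : τ w = ζ * w
  c_mem : c ∈ A0 A
  c_unit : A.valuation c = 1
  val_eta : A.valuation (w - c) ^ p = A.valuation ((p : ℕ) : Qb)

/-- the uniformiser `ϖ = (ζ − 1) / (w − c)` of `K′ = K₁(w)` -/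
noncomputable def varpi (ζ w c : Qb) : Qb := (ζ - 1) / (w - c)

variable {A : ValuationSubring Qb} {p : ℕ}

/-- in the non-split case the data exist -/
theorem exists_nonSplit (hp : p.Prime) (hp3 : 3 ≤ p) (hA : A.LiesOverPrime p) {w : Qb}
    (hw : IsUnitRoot A p w) (hns : ¬ ∀ σ ∈ IOne A p, σ w = w) :
    ∃ (ζ c : Qb) (τ : GQ), NonSplit A p w ζ c τ := by
  have : Fact p.Prime := ⟨hp⟩
  rcases unitRoot_dichotomy hp hp3 hA hw with h | ⟨c, hc, hc1, hη⟩
  · exact absurd h hns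
  push Not at hns
  obtain ⟨τ, hτ, hτw⟩ := hns
  have hw0 : w ≠ 0 := by
    intro h0
    have := hw.2
    rw [h0, zero_pow hp.ne_zero, map_zero] at this
    exact zero_ne_one this
  have hζp : (τ w / w) ^ p = 1 := by
    rw [div_pow, ← map_pow, hw.1.2 τ hτ.1, div_self (pow_ne_zero _ hw0)]
  have hζ1 : τ w / w ≠ 1 := by
    intro h1
    rw [div_eq_one_iff_eq hw0] at h1
    exact hτw h1
  have hord := orderOf_eq_prime hζp hζ1
  refine ⟨τ w / w, c, τ, ⟨hw, ?_, hτ, by rw [div_mul_cancel₀ _ hw0], hc, hc1, hη⟩⟩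
  rw [← hord]
  exact IsPrimitiveRoot.orderOf _

namespace NonSplit

variable {w ζ c : Qb} {τ : GQ}

section Basic

variable (hp : p.Prime) (hA : A.LiesOverPrime p) (h : NonSplit A p w ζ c τ)
include hp h

theorem val_w : A.valuation w = 1 := by
  have := h.unitRoot.2
  rw [map_pow] at this
  exact (pow_eq_one_iff_of_nonneg zero_le hp.ne_zero).1 this

theorem w_ne_zero : w ≠ 0 := by
  intro h0
  have := h.val_w hp
  rw [h0, map_zero] at this
  exact zero_ne_one this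

theorem val_eta_ne_zero : A.valuation (w - c) ≠ 0 := by
  intro h0
  have := h.val_eta
  rw [h0, zero_pow hp.ne_zero] at this
  exact val_p_ne_zero hp this.symm

theorem eta_ne_zero : w - c ≠ 0 := (Valuation.ne_zero_iff _).1 (h.val_eta_ne_zero hp)

theorem lam_ne_zero : ζ - 1 ≠ 0 := sub_ne_zero.2 (h.prim.ne_one hp.one_lt)

theorem varpi_ne_zero : varpi ζ w c ≠ 0 :=
  div_ne_zero (h.lam_ne_zero hp) (h.eta_ne_zero hp)

theorem val_varpi : A.valuation (varpi ζ w c) = A.valuation (ζ - 1) / A.valuation (w - c) := by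
  rw [varpi, map_div₀]

theorem val_lam_ne_zero : A.valuation (ζ - 1) ≠ 0 :=
  (Valuation.ne_zero_iff _).2 (h.lam_ne_zero hp)

theorem val_varpi_ne_zero : A.valuation (varpi ζ w c) ≠ 0 :=
  (Valuation.ne_zero_iff _).2 (h.varpi_ne_zero hp)

/-- `v ϖ ^ p = v (ζ − 1)` -/
theorem val_varpi_pow_p : A.valuation (varpi ζ w c) ^ p = A.valuation (ζ - 1) := by
  have hℓ := val_zeta_sub_one_pow A.valuation hp h.prim
  rw [h.val_varpi hp, div_pow, h.val_eta, ← hℓ,
    div_eq_iff (pow_ne_zero _ (h.val_lam_ne_zero hp)), ← pow_succ']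
  congr 1
  have := hp.two_le
  omega

/-- `v ϖ ^ (p − 1) = v (w − c)` -/
theorem val_varpi_pow_pred : A.valuation (varpi ζ w c) ^ (p - 1) = A.valuation (w - c) := by
  have hℓ := val_zeta_sub_one_pow A.valuation hp h.prim
  rw [h.val_varpi hp, div_pow, hℓ, ← h.val_eta,
    div_eq_iff (pow_ne_zero _ (h.val_eta_ne_zero hp)), ← pow_succ']
  congr 1
  have := hp.two_le
  omega

/-- `v ϖ ^ (p (p − 1)) = v p`: `ϖ` is a uniformiser of the totally ramified extension `K′ / K₀`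
of degree `p (p − 1)` -/
theorem val_varpi_pow :
    A.valuation (varpi ζ w c) ^ (p * (p - 1)) = A.valuation ((p : ℕ) : Qb) := by
  rw [pow_mul, h.val_varpi_pow_p hp]
  exact val_zeta_sub_one_pow A.valuation hp h.prim

include hA

theorem val_lam_lt_one : A.valuation (ζ - 1) < 1 :=
  val_zeta_sub_one_lt_one A.valuation hp h.prim (val_p_lt_one hA)

theorem val_varpi_lt_one : A.valuation (varpi ζ w c) < 1 := by
  by_contra hge
  rw [not_lt] at hge
  have h1 := one_le_pow₀ hge (n := p)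
  rw [h.val_varpi_pow_p hp] at h1
  exact absurd (h.val_lam_lt_one hp hA) (not_lt.2 h1)

theorem val_varpi_mul_w : A.valuation (varpi ζ w c * w) = A.valuation (varpi ζ w c) := by
  rw [map_mul, h.val_w hp, mul_one]

theorem val_one_add : A.valuation (1 + varpi ζ w c * w) = 1 :=
  val_one_add_eq_one _ (by rw [h.val_varpi_mul_w hp hA]; exact h.val_varpi_lt_one hp hA)

theorem one_add_ne_zero : 1 + varpi ζ w c * w ≠ 0 := by
  intro h0
  have := h.val_one_add hp hA
  rw [h0, map_zero] at this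
  exact zero_ne_one this

/-- `τ η₀ = η₀ (1 + ϖ w)` -/
theorem tau_eta : τ (w - c) = (w - c) * (1 + varpi ζ w c * w) := by
  have hη := h.eta_ne_zero hp
  rw [map_sub, h.tau_w, h.c_mem.2 τ h.tau_mem.1, varpi]
  field_simp
  ring

/-- `τ ϖ = ϖ / (1 + ϖ w)` -/
theorem tau_varpi : τ (varpi ζ w c) = varpi ζ w c / (1 + varpi ζ w c * w) := by
  have hτζ : τ ζ = ζ := h.tau_mem.2 ζ h.prim.pow_eq_one
  have e : τ (varpi ζ w c) = (ζ - 1) / τ (w - c) := by
    rw [varpi, map_div₀, map_sub τ ζ 1, hτζ, map_one]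
  rw [e, h.tau_eta hp hA, varpi, div_div]

/-- **break 1**: `τ ϖ / ϖ ≡ 1 − ϖ w (mod ϖ²)` -/
theorem val_tau_varpi :
    A.valuation (τ (varpi ζ w c) / varpi ζ w c - (1 - varpi ζ w c * w)) ≤
      A.valuation (varpi ζ w c) ^ 2 := by
  have h0 := h.varpi_ne_zero hp
  have h1 := h.one_add_ne_zero hp hA
  have e : τ (varpi ζ w c) / varpi ζ w c - (1 - varpi ζ w c * w) =
      (varpi ζ w c * w) ^ 2 / (1 + varpi ζ w c * w) := by
    rw [h.tau_varpi hp hA]
    field_simp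
    ring
  rw [e, map_div₀, h.val_one_add hp hA, div_one, map_pow, h.val_varpi_mul_w hp hA]

/-- `ϖ` is fixed by `H′ = I₁ ∩ Fix w` -/
theorem varpi_fixed {σ : GQ} (hσ : σ ∈ IOne A p) (hσw : σ w = w) :
    σ (varpi ζ w c) = varpi ζ w c := by
  have hσζ : σ ζ = ζ := hσ.2 ζ h.prim.pow_eq_one
  rw [varpi, map_div₀, map_sub σ ζ 1, map_sub σ w c, hσζ, hσw, map_one, h.c_mem.2 σ hσ.1]

end Basic

section Expansion

variable (hp : p.Prime) (hA : A.LiesOverPrime p) (h : NonSplit A p w ζ c τ)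
include hp hA h

theorem isCoprime_p_pred : IsCoprime ((p : ℕ) : ℤ) (((p - 1 : ℕ) : ℕ) : ℤ) := by
  rw [Nat.isCoprime_iff_coprime, Nat.Prime.coprime_iff_not_dvd hp]
  intro hdvd
  have h2 := hp.two_le
  have := Nat.le_of_dvd (by omega) hdvd
  omega

/-- the valuation of a term `e η₀^i`, `e ∈ K₁ˣ` -/
theorem val_term {e : Qb} (he0 : e ≠ 0) (he : ∀ σ ∈ IOne A p, σ e = e) (i : ℕ) :
    ∃ n : ℤ, A.valuation (e * (w - c) ^ i) =
      A.valuation (varpi ζ w c) ^ (((p : ℕ) : ℤ) * n + (((p - 1 : ℕ) : ℕ) : ℤ) * i) := by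
  obtain ⟨n, hn⟩ := val_of_IOne_fixed hp hA h.prim he0 he
  refine ⟨n, ?_⟩
  rw [map_mul, map_pow, hn, ← h.val_varpi_pow_p hp, ← h.val_varpi_pow_pred hp, ← zpow_natCast,
    ← zpow_mul, ← zpow_natCast (A.valuation (varpi ζ w c)) (p - 1), ← zpow_natCast _ i,
    ← zpow_mul, ← zpow_add₀ (h.val_varpi_ne_zero hp)]

/-- **expansion** of an `H′`-fixed element in powers of `η₀ = w − c` with coefficients in `K₁`;
the terms are bounded by `v a`. -/
theorem exists_expansion {a : Qb} (ha : ∀ σ ∈ IOne A p, σ w = w → σ a = a) :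
    ∃ e : ℕ → Qb, (∀ i, ∀ σ ∈ IOne A p, σ (e i) = e i) ∧
      a = ∑ i ∈ Finset.range p, e i * (w - c) ^ i ∧
      (∀ i < p, A.valuation (e i * (w - c) ^ i) ≤ A.valuation a) ∧
      (a ≠ 0 → ∃ k < p, e k ≠ 0 ∧ A.valuation a = A.valuation (e k * (w - c) ^ k)) := by
  classical
  have : NeZero p := ⟨hp.ne_zero⟩
  have hw0 := h.w_ne_zero hp
  set S : Finset Qb := (Finset.range p).image (fun k => ζ ^ k * w - c) with hS
  have hScard : S.card ≤ p := by
    refine le_trans Finset.card_image_le ?_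
    rw [Finset.card_range]
  have hσw : ∀ σ ∈ IOne A p, ∃ k < p, σ w = ζ ^ k * w := by
    intro σ hσ
    have h1 : (σ w / w) ^ p = 1 := by
      rw [div_pow, ← map_pow, h.unitRoot.1.2 σ hσ.1, div_self (pow_ne_zero _ hw0)]
    obtain ⟨k, hk, hkζ⟩ := h.prim.eq_pow_of_pow_eq_one h1
    exact ⟨k, hk, by rw [hkζ, div_mul_cancel₀ _ hw0]⟩
  have hmemS : ∀ σ ∈ IOne A p, σ (w - c) ∈ S := by
    intro σ hσ
    obtain ⟨k, hk, hkw⟩ := hσw σ hσ
    rw [map_sub, hkw, h.c_mem.2 σ hσ.1]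
    exact Finset.mem_image.2 ⟨k, Finset.mem_range.2 hk, rfl⟩
  have hstab : ∀ σ ∈ IOne A p, σ (w - c) = w - c → σ a = a := by
    intro σ hσ h1
    apply ha σ hσ
    rw [map_sub, h.c_mem.2 σ hσ.1] at h1
    exact sub_left_injective h1
  obtain ⟨e, he, hsum⟩ :=
    exists_coeffs_of_fixed' (IOne A p) (w - c) S hmemS p hScard a hstab
  refine ⟨e, he, hsum, ?_⟩
  have hterm : ∀ i < p, e i * (w - c) ^ i ≠ 0 →
      ∃ n : ℤ, A.valuation (e i * (w - c) ^ i) =
        A.valuation (varpi ζ w c) ^ (((p : ℕ) : ℤ) * n + (((p - 1 : ℕ) : ℕ) : ℤ) * i) :=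
    fun i _ hti => h.val_term hp hA (left_ne_zero_of_mul hti) (he i) i
  rcases eq_or_ne a 0 with rfl | ha0
  · have hall : ∀ i < p, e i * (w - c) ^ i = 0 := by
      by_contra hcon
      push Not at hcon
      have hne : ∑ i ∈ Finset.range p, e i * (w - c) ^ i ≠ 0 := by
        intro hzero
        obtain ⟨i, hi, hi0⟩ := hcon
        -- all nonzero terms have distinct valuations, so a nonzero term forces a nonzero sum
        obtain ⟨k, hk, hk0, hv, -⟩ := val_sum_of_distinct A.valuation (Finset.range p)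
          (fun i => e i * (w - c) ^ i) (by
            intro i hi j hj hti htj hv
            rw [Finset.mem_range] at hi hj
            obtain ⟨a', ha'⟩ := hterm i hi hti
            obtain ⟨b', hb'⟩ := hterm j hj htj
            rw [ha', hb'] at hv
            have h1 := zpow_inj_of_lt_one (h.val_varpi_ne_zero hp) (h.val_varpi_lt_one hp hA) hv
            have h2 := index_eq_of_eq (isCoprime_p_pred hp hA h) (i := (i : ℤ)) (j := (j : ℤ))
              (by positivity) (by exact_mod_cast hi) (by positivity) (by exact_mod_cast hj) h1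
            exact_mod_cast h2) ⟨i, Finset.mem_range.2 hi, hi0⟩
        rw [hzero, map_zero] at hv
        exact hk0 ((Valuation.zero_iff _).1 hv.symm)
      exact hne hsum.symm
    refine ⟨fun i hi => by rw [hall i hi, map_zero], fun h0 => absurd rfl h0⟩
  · have hne : ∑ i ∈ Finset.range p, e i * (w - c) ^ i ≠ 0 := by rw [← hsum]; exact ha0
    obtain ⟨k, hk, hk0, hv, hle⟩ := val_sum_of_graded A.valuation (h.val_varpi_ne_zero hp)
      (h.val_varpi_lt_one hp hA) (isCoprime_p_pred hp hA h) (fun i => e i * (w - c) ^ i) hterm hne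
    rw [← hsum] at hv
    refine ⟨fun i hi => by rw [hv]; exact hle i hi, fun _ => ⟨k, hk, left_ne_zero_of_mul hk0, hv⟩⟩

/-- **the value group of `K′`** is generated by `v ϖ` -/
theorem val_of_fixed {a : Qb} (ha0 : a ≠ 0) (ha : ∀ σ ∈ IOne A p, σ w = w → σ a = a) :
    ∃ m : ℤ, A.valuation a = A.valuation (varpi ζ w c) ^ m := by
  obtain ⟨e, he, -, -, hk⟩ := h.exists_expansion hp hA ha
  obtain ⟨k, -, hk0, hv⟩ := hk ha0
  obtain ⟨n, hn⟩ := h.val_term hp hA hk0 (he k) k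
  exact ⟨_, by rw [hv, hn]⟩

/-- an `H′`-fixed element of the maximal ideal is divisible by `ϖ` -/
theorem val_le_of_fixed {a : Qb} (ha : ∀ σ ∈ IOne A p, σ w = w → σ a = a)
    (hlt : A.valuation a < 1) : A.valuation a ≤ A.valuation (varpi ζ w c) := by
  rcases eq_or_ne a 0 with rfl | ha0
  · rw [map_zero]; exact zero_le
  obtain ⟨m, hm⟩ := h.val_of_fixed hp hA ha0 ha
  rw [hm] at hlt ⊢
  exact zpow_le_of_lt_one (h.val_varpi_ne_zero hp) (h.val_varpi_lt_one hp hA) hlt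

/-- **`τ` is trivial modulo `ϖ²` on `H′`-fixed integral elements** -/
theorem val_tau_sub_le {ε : Qb} (hε : ∀ σ ∈ IOne A p, σ w = w → σ ε = ε)
    (hε1 : A.valuation ε ≤ 1) :
    A.valuation (τ ε - ε) ≤ A.valuation (varpi ζ w c) ^ 2 := by
  obtain ⟨e, he, hsum, hle, -⟩ := h.exists_expansion hp hA hε
  have hg0 := h.val_varpi_ne_zero hp
  have hg1 := h.val_varpi_lt_one hp hA
  have hτ : τ ε - ε = ∑ i ∈ Finset.range p,
      e i * (w - c) ^ i * ((1 + varpi ζ w c * w) ^ i - 1) := by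
    conv_lhs => rw [hsum]
    rw [map_sum, ← Finset.sum_sub_distrib]
    apply Finset.sum_congr rfl
    intro i _
    rw [map_mul, map_pow, he i τ h.tau_mem, h.tau_eta hp hA, mul_pow]
    ring
  rw [hτ]
  apply Valuation.map_sum_le
  intro i hi
  rw [Finset.mem_range] at hi
  rcases Nat.eq_zero_or_pos i with rfl | hipos
  · simp
  rcases eq_or_ne (e i) 0 with h0 | h0
  · rw [h0]; simp
  rw [map_mul, pow_two]
  apply mul_le_mul'
  · -- `v (e_i η₀^i) < 1`, hence `≤ v ϖ`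
    obtain ⟨n, hn⟩ := h.val_term hp hA h0 (he i) i
    have hle1 : A.valuation (e i * (w - c) ^ i) ≤ 1 := le_trans (hle i hi) hε1
    have hne1 : A.valuation (e i * (w - c) ^ i) ≠ 1 := by
      rw [hn]
      intro h1
      have h2 : ((p : ℕ) : ℤ) * n + (((p - 1 : ℕ) : ℕ) : ℤ) * i = 0 :=
        zpow_inj_of_lt_one hg0 hg1 (by rw [h1, zpow_zero])
      have h3 : ((p : ℕ) : ℤ) ∣ (((p - 1 : ℕ) : ℕ) : ℤ) * i := ⟨-n, by linear_combination h2⟩
      have h4 : ((p : ℕ) : ℤ) ∣ (i : ℤ) := (isCoprime_p_pred hp hA h).dvd_of_dvd_mul_left h3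
      have h5 : p ∣ i := by exact_mod_cast h4
      exact absurd (Nat.le_of_dvd hipos h5) (not_le.2 hi)
    have hlt : A.valuation (e i * (w - c) ^ i) < 1 := lt_of_le_of_ne hle1 hne1
    rw [hn] at hlt ⊢
    exact zpow_le_of_lt_one hg0 hg1 hlt
  · have := val_one_add_pow_sub_one_le A.valuation (x := varpi ζ w c * w)
      (by rw [h.val_varpi_mul_w hp hA]; exact hg1.le) i
    rwa [h.val_varpi_mul_w hp hA] at this

/-- **the action of `τ` on `K′ˣ` modulo `ϖ²`**: `τ a / a ≡ 1 − m ϖ w`, `m = v_{K′}(a)` -/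
theorem val_tau_div_sub_le {a : Qb} (ha : ∀ σ ∈ IOne A p, σ w = w → σ a = a) {m : ℤ}
    (hm : A.valuation a = A.valuation (varpi ζ w c) ^ m) :
    A.valuation (τ a / a - (1 - (m : Qb) * varpi ζ w c * w)) ≤
      A.valuation (varpi ζ w c) ^ 2 := by
  have hg0 := h.val_varpi_ne_zero hp
  have hg1 := h.val_varpi_lt_one hp hA
  have hϖ0 := h.varpi_ne_zero hp
  have ha0 : a ≠ 0 := by
    rw [← Valuation.ne_zero_iff A.valuation, hm]
    exact zpow_ne_zero _ hg0
  set x : Qb := varpi ζ w c * w with hx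
  have hxv : A.valuation x = A.valuation (varpi ζ w c) := h.val_varpi_mul_w hp hA
  have h1x : A.valuation (1 + x) = 1 := h.val_one_add hp hA
  have h1x0 : 1 + x ≠ 0 := h.one_add_ne_zero hp hA
  -- the unit part
  set ε : Qb := a / varpi ζ w c ^ m with hε
  have hεv : A.valuation ε = 1 := by
    rw [hε, map_div₀, map_zpow₀, hm, div_self (zpow_ne_zero _ hg0)]
  have hε0 : ε ≠ 0 := by
    intro h0; rw [h0, map_zero] at hεv; exact zero_ne_one hεv
  have hεfix : ∀ σ ∈ IOne A p, σ w = w → σ ε = ε := by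
    intro σ hσ hσw
    rw [hε, map_div₀, map_zpow₀, ha σ hσ hσw, h.varpi_fixed hp hA hσ hσw]
  have hδ₁ := h.val_tau_sub_le hp hA hεfix hεv.le
  have hδ₂ := val_one_add_zpow_sub_le_sq A.valuation (x := x) (by rw [hxv]; exact hg1) (-m)
  rw [hxv] at hδ₂
  -- `τ a / a = (τ ε / ε) (1 + x)^(-m)`
  have hτa : τ a / a = (τ ε / ε) * (1 + x) ^ (-m) := by
    have e1 : a = ε * varpi ζ w c ^ m := by
      rw [hε, div_mul_cancel₀ _ (zpow_ne_zero _ hϖ0)]
    have e2 : τ a = τ ε * (varpi ζ w c / (1 + x)) ^ m := by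
      conv_lhs => rw [e1]
      rw [map_mul, map_zpow₀, h.tau_varpi hp hA]
    rw [e2]
    conv_lhs => rw [e1]
    rw [div_zpow, zpow_neg]
    field_simp
  have e : τ a / a - (1 - (m : Qb) * varpi ζ w c * w) =
      ((τ ε - ε) / ε) * (1 + x) ^ (-m) + ((1 + x) ^ (-m) - (1 + ((-m : ℤ) : Qb) * x)) := by
    rw [hτa, hx]
    push_cast
    field_simp
    ring
  rw [e]
  refine le_trans (A.valuation.map_add _ _) (max_le ?_ hδ₂)
  rw [map_mul, map_div₀, hεv, div_one, map_zpow₀, h1x, one_zpow, mul_one]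
  exact hδ₁

/-- `v (K₁ˣ) ⊆ v(ϖ)^{pℤ}` -/
theorem val_of_IOne_fixed_varpi {a : Qb} (ha0 : a ≠ 0) (ha : ∀ σ ∈ IOne A p, σ a = a) :
    ∃ n : ℤ, A.valuation a = A.valuation (varpi ζ w c) ^ (((p : ℕ) : ℤ) * n) := by
  obtain ⟨n, hn⟩ := val_of_IOne_fixed hp hA h.prim ha0 ha
  refine ⟨n, ?_⟩
  rw [hn, ← h.val_varpi_pow_p hp, ← zpow_natCast, ← zpow_mul]

end Expansion

end NonSplit

end Fermat.Agent.S44lib.F
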