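/-
S44 library, block F (helper8): the field facts in the exact shape of helper7's `M.BreakOne`
(`G = I₁ = IOne A p`, `H′ = I₁ ∩ Fix w`, `β = −w`):

* `val_tau_sub_mul_le` : `v (τ a − a (1 + m β ϖ)) ≤ v a · v ϖ ^ 2` for `H′`-fixed `a`, `v a = v ϖ ^ m`;
* `val_le_sq_of_IOne_fixed` : `I₁`-fixed `a` with `v a < 1` has `v a ≤ v ϖ ^ 2`;
* `val_p_le_sq` : `v p ≤ v ϖ ^ 2`.
-/
import Mathlib
import Fermat.Agent.S44lib.F.Break

set_option autoImplicit false
set_option linter.unusedSectionVars false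

namespace Fermat.Agent.S44lib.F

open Fermat.Agent.S19lib Fermat.Agent.S44lib

local notation "Qb" => AlgebraicClosure ℚ
local notation "GQ" => (AlgebraicClosure ℚ ≃ₐ[ℚ] AlgebraicClosure ℚ)

namespace NonSplit

variable {A : ValuationSubring Qb} {p : ℕ} {w ζ c : Qb} {τ : GQ}
variable (hp : p.Prime) (hA : A.LiesOverPrime p) (h : NonSplit A p w ζ c τ)
include hp hA h

/-- `β = −w` is a unit -/
theorem val_beta : A.valuation (-w) = 1 := by
  rw [Valuation.map_neg]; exact h.val_w hp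

/-- **the `act` field of `BreakOne`** with `β = −w` -/
theorem val_tau_sub_mul_le {a : Qb} (ha : ∀ σ ∈ IOne A p, σ w = w → σ a = a) {m : ℤ}
    (hm : A.valuation a = A.valuation (varpi ζ w c) ^ m) :
    A.valuation (τ a - a * (1 + (m : Qb) * (-w) * varpi ζ w c)) ≤
      A.valuation a * A.valuation (varpi ζ w c) ^ 2 := by
  have hg0 := h.val_varpi_ne_zero hp
  have ha0 : a ≠ 0 := by
    rw [← Valuation.ne_zero_iff A.valuation, hm]
    exact zpow_ne_zero _ hg0
  have e : τ a - a * (1 + (m : Qb) * (-w) * varpi ζ w c) =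
      a * (τ a / a - (1 - (m : Qb) * varpi ζ w c * w)) := by
    field_simp
    ring
  rw [e, map_mul]
  exact mul_le_mul' le_rfl (h.val_tau_div_sub_le hp hA ha hm)

theorem val_lam_le_sq (hp3 : 3 ≤ p) :
    A.valuation (ζ - 1) ≤ A.valuation (varpi ζ w c) ^ 2 := by
  rw [← h.val_varpi_pow_p hp]
  exact pow_le_pow_of_le_one zero_le (h.val_varpi_lt_one hp hA).le (by omega)

/-- **the `small` fact**: `I₁`-fixed elements of the maximal ideal are `≡ 0 (mod ϖ²)` -/
theorem val_le_sq_of_IOne_fixed (hp3 : 3 ≤ p) {a : Qb} (ha : ∀ σ ∈ IOne A p, σ a = a)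
    (hlt : A.valuation a < 1) : A.valuation a ≤ A.valuation (varpi ζ w c) ^ 2 :=
  le_trans (val_le_of_IOne_fixed hp hA h.prim ha hlt) (h.val_lam_le_sq hp hA hp3)

/-- `v p ≤ v ϖ ^ 2` -/
theorem val_p_le_sq (hp3 : 3 ≤ p) :
    A.valuation ((p : ℕ) : Qb) ≤ A.valuation (varpi ζ w c) ^ 2 := by
  rw [← h.val_varpi_pow hp]
  refine pow_le_pow_of_le_one zero_le (h.val_varpi_lt_one hp hA).le ?_
  have : 2 ≤ p - 1 := by omega
  calc 2 ≤ 3 * 2 := by norm_num
    _ ≤ p * (p - 1) := Nat.mul_le_mul hp3 this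

end NonSplit

end Fermat.Agent.S44lib.F
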