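/-
S44 library, block F (helper8): **the adapter to helper7's `M.BreakOne`**.

`S : N.IAct A F G` an inertia-type action whose action on constants is given by
`φ : G → Gal(ℚ̄/ℚ)` (`S.hat g a = φ g a`), `H′ ≤ G` a subgroup through which every element of
`I₁ = IOne A p` fixing `w` acts, `τ' ∈ G` with `φ τ' = τ`.  Then, in the non-split situation
`NonSplit A p w ζ c τ`,  `BreakOne S H' τ' (varpi ζ w c) (-w)`;  together with the two scalar
facts `hsm`, `hpi` of `M.rigid`.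
-/
import Mathlib
import Fermat.Agent.S44lib.F.BreakOne
import Fermat.Agent.S44lib.M.Break

set_option autoImplicit false
set_option linter.unusedSectionVars false

namespace Fermat.Agent.S44lib.F

open Fermat.Agent.S19lib Fermat.Agent.S44lib Fermat.Agent.S33lib

local notation "Qb" => AlgebraicClosure ℚ
local notation "GQ" => (AlgebraicClosure ℚ ≃ₐ[ℚ] AlgebraicClosure ℚ)

variable {A : ValuationSubring Qb} {p : ℕ} {w ζ c : Qb} {τ : GQ}
variable {F : Type*} [Field F] [Algebra Qb F] {G : Type*} [Group G]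

/-- **the break-one package of the non-split peu ramifié extension** (`β = −w`) -/
theorem breakOne_of_nonSplit (hp : p.Prime) (hA : A.LiesOverPrime p)
    (h : NonSplit A p w ζ c τ) (S : N.IAct A F G) (φ : G → GQ)
    (hφ : ∀ g a, S.hat g a = φ g a) (H' : Subgroup G)
    (hH : ∀ σ ∈ IOne A p, σ w = w → ∃ g ∈ H', φ g = σ) (τ' : G) (hτ : φ τ' = τ) :
    M.BreakOne S H' τ' (varpi ζ w c) (-w) where
  ne_zero := h.varpi_ne_zero hp
  lt_one := h.val_varpi_lt_one hp hA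
  beta_unit := h.val_beta hp hA
  val := by
    intro a ha0 hfix
    refine h.val_of_fixed hp hA ha0 (fun σ hσ hσw => ?_)
    obtain ⟨g, hg, rfl⟩ := hH σ hσ hσw
    rw [← hφ]; exact hfix g hg
  act := by
    intro a m hfix hm
    rw [hφ, hτ]
    refine h.val_tau_sub_mul_le hp hA (fun σ hσ hσw => ?_) hm
    obtain ⟨g, hg, rfl⟩ := hH σ hσ hσw
    rw [← hφ]; exact hfix g hg

/-- the hypothesis `hsm` of `M.rigid`: `G`-fixed small constants are `≡ 0 (mod ϖ²)` -/
theorem small_of_nonSplit (hp : p.Prime) (hp3 : 3 ≤ p) (hA : A.LiesOverPrime p)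
    (h : NonSplit A p w ζ c τ) (S : N.IAct A F G) (φ : G → GQ)
    (hφ : ∀ g a, S.hat g a = φ g a) (hG : ∀ σ ∈ IOne A p, ∃ g, φ g = σ) :
    ∀ a : Qb, (∀ g : G, S.hat g a = a) → A.valuation a < 1 →
      A.valuation a ≤ A.valuation (varpi ζ w c ^ 2) := by
  intro a hfix hlt
  rw [map_pow]
  refine h.val_le_sq_of_IOne_fixed hp hA hp3 (fun σ hσ => ?_) hlt
  obtain ⟨g, rfl⟩ := hG σ hσ
  rw [← hφ]; exact hfix g

/-- the hypothesis `hpi` of `M.rigid` when the thickness is `p` -/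
theorem val_p_le_varpi_sq (hp : p.Prime) (hp3 : 3 ≤ p) (hA : A.LiesOverPrime p)
    (h : NonSplit A p w ζ c τ) :
    A.valuation ((p : ℕ) : Qb) ≤ A.valuation (varpi ζ w c ^ 2) := by
  rw [map_pow]; exact h.val_p_le_sq hp hA hp3

/-! ### the concrete case `G = I₁` -/

/-- the subgroup `H′ = I₁ ∩ Fix w` of `I₁ = IOne A p` -/
def fixW (A : ValuationSubring Qb) (p : ℕ) (w : Qb) : Subgroup ↥(IOne A p) where
  carrier := {g | (g : GQ) w = w}
  mul_mem' := by
    intro a b ha hb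
    show ((a * b : ↥(IOne A p)) : GQ) w = w
    rw [Subgroup.coe_mul, AlgEquiv.mul_apply, show (b : GQ) w = w from hb,
      show (a : GQ) w = w from ha]
  one_mem' := rfl
  inv_mem' := by
    intro a ha
    show ((a⁻¹ : ↥(IOne A p)) : GQ) w = w
    have ha' : (a : GQ) w = w := ha
    rw [Subgroup.coe_inv]
    calc (a : GQ)⁻¹ w = (a : GQ)⁻¹ ((a : GQ) w) := by rw [ha']
      _ = w := by rw [← AlgEquiv.mul_apply, inv_mul_cancel, AlgEquiv.one_apply]

theorem mem_fixW {g : ↥(IOne A p)} : g ∈ fixW A p w ↔ (g : GQ) w = w := Iff.rfl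

/-- `BreakOne` for an action of `I₁` itself -/
theorem breakOne_IOne (hp : p.Prime) (hA : A.LiesOverPrime p) (h : NonSplit A p w ζ c τ)
    (S : N.IAct A F ↥(IOne A p)) (hφ : ∀ (g : ↥(IOne A p)) (a : Qb), S.hat g a = (g : GQ) a) :
    M.BreakOne S (fixW A p w) ⟨τ, h.tau_mem⟩ (varpi ζ w c) (-w) :=
  breakOne_of_nonSplit hp hA h S (fun g => (g : GQ)) hφ (fixW A p w)
    (fun σ hσ hσw => ⟨⟨σ, hσ⟩, hσw, rfl⟩) ⟨τ, h.tau_mem⟩ rfl

/-- `hsm` for an action of `I₁` itself -/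
theorem small_IOne (hp : p.Prime) (hp3 : 3 ≤ p) (hA : A.LiesOverPrime p)
    (h : NonSplit A p w ζ c τ) (S : N.IAct A F ↥(IOne A p))
    (hφ : ∀ (g : ↥(IOne A p)) (a : Qb), S.hat g a = (g : GQ) a) :
    ∀ a : Qb, (∀ g : ↥(IOne A p), S.hat g a = a) → A.valuation a < 1 →
      A.valuation a ≤ A.valuation (varpi ζ w c ^ 2) :=
  small_of_nonSplit hp hp3 hA h S (fun g => (g : GQ)) hφ (fun σ hσ => ⟨⟨σ, hσ⟩, rfl⟩)

end Fermat.Agent.S44lib.F
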